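/-
E' seat DESC-COMM (helper96), part 3: the tower of the fields `F_M = ℚ̄(j_d : d ∣ M)`.
* `incl A B h : F_A →ₐ F_B` for `A ∣ B`, with `[F_B : F_A] · ψ(A) = ψ(B)`;
* generation: `F_M = ℚ̄(j, j_M)`.
Everything from the Galois datum `(SL(2,ℤ), LL M, ℚ̄(j))` of S24.
-/
import Mathlib
import Fermat.Agent.Lib.Kronecker.NormProd
import Fermat.Agent.Lib.Kronecker.ConjGens

set_option autoImplicit false

noncomputable section

namespace Fermat.Agent.HeckeComm

open ModularCurve AlgebraicCurve Fermat.Agent.S24 Fermat.Agent.S24.EmbFHom Fermat.Agent.Kronecker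
open scoped MatrixGroups

local notation "Qb" => AlgebraicClosure ℚ

/-- `F_A ≤ F_B` for `A ∣ B`. -/
theorem fbar_le {A B : ℕ} [NeZero A] [NeZero B] (h : A ∣ B) :
    modularFunctionFieldBar A ≤ modularFunctionFieldBar B := by
  unfold modularFunctionFieldBar laurentBaseChange
  rw [IntermediateField.adjoin_le_iff]
  rintro _ ⟨y, hy, rfl⟩
  exact coeffEmb_mem_laurentBaseChange Qb (full_degeneracy_le h hy)

/-- the inclusion `F_A → F_B` for `A ∣ B`. -/
def incl (A B : ℕ) [NeZero A] [NeZero B] (h : A ∣ B) :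
    ↥(modularFunctionFieldBar A) →ₐ[Qb] ↥(modularFunctionFieldBar B) :=
  IntermediateField.inclusion (fbar_le h)

@[simp]
theorem coe_incl (A B : ℕ) [NeZero A] [NeZero B] (h : A ∣ B)
    (x : ↥(modularFunctionFieldBar A)) :
    ((incl A B h x : ↥(modularFunctionFieldBar B)) : LaurentSeries Qb) = x :=
  IntermediateField.coe_inclusion _ x

theorem heckeAlphaBar_eq_incl (N ℓ : ℕ) [NeZero N] [NeZero ℓ] :
    heckeAlphaBar Qb N ℓ = incl N (N * ℓ) (dvd_mul_right N ℓ) :=
  rfl

theorem embHom_incl (A B : ℕ) [NeZero A] [NeZero B] (h : A ∣ B)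
    (x : ↥(modularFunctionFieldBar A)) :
    embHom B B dvd_rfl (incl A B h x) = embHom A B h x := by
  apply expLL_injective B
  rw [expLL_embHom, expLL_embHom, coe_incl]

/-- **Degree**: `[F_B : F_A] · ψ(A) = ψ(B)`. -/
theorem finrank_incl (A B : ℕ) [NeZero A] [NeZero B] (h : A ∣ B) :
    letI := (incl A B h).toRingHom.toAlgebra
    FiniteDimensional ↥(modularFunctionFieldBar A) ↥(modularFunctionFieldBar B) ∧
      Module.finrank ↥(modularFunctionFieldBar A) ↥(modularFunctionFieldBar B)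
        * dedekindPsi A = dedekindPsi B := by
  have hj : embHom A B h (jBar A) = jLL B := embHom_jq A B h (jBar A) rfl
  obtain ⟨hfd, hrank⟩ := finrank_hom_mul_index_eq_index (Γ := SL(2, ℤ))
    (embHom A B h) (embHom B B dvd_rfl) (incl A B h) (embHom_incl A B h)
    (jBar A) (exists_finiteIndex_fixing B)
    (fun g => by rw [hj]; exact smul_jLL B g)
    (fun x hx => by
      rw [hj]; exact Fermat.Agent.S24Inv.mem_adjoin_jLL_of_invariant' B x hx)
    (CongruenceSubgroup.Gamma0 A) (CongruenceSubgroup.Gamma0 B)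
    (mem_Gamma0_iff_smul_embHom A B h)
    (mem_Gamma0_iff_smul_embHom B B dvd_rfl)
  refine ⟨hfd, ?_⟩
  rw [index_Gamma0 A, index_Gamma0 B] at hrank
  exact hrank

theorem dedekindPsi_pos' (A : ℕ) [NeZero A] : 0 < dedekindPsi A := by
  rw [← index_Gamma0 A]
  exact Nat.pos_of_ne_zero (Subgroup.FiniteIndex.index_ne_zero)

/-! ### generation -/

theorem embHom_jdBar (M d : ℕ) [NeZero M] [NeZero d] (hd : d ∣ M) :
    embHom M M dvd_rfl (jdBar M d hd) = jdLL M d hd := by
  apply expLL_injective M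
  rw [expLL_embHom, expLL_jdLL, coe_jdBar, qExpand_qExpand]

set_option synthInstance.maxHeartbeats 400000 in
/-- `F_M = ℚ̄(j, j_M)`. -/
theorem mem_adjoin_j_jM (M : ℕ) [NeZero M] (x : ↥(modularFunctionFieldBar M)) :
    x ∈ IntermediateField.adjoin Qb
      ({jBar M, jdBar M M dvd_rfl} : Set ↥(modularFunctionFieldBar M)) := by
  set S : IntermediateField Qb ↥(modularFunctionFieldBar M) :=
    IntermediateField.adjoin Qb ({jBar M, jdBar M M dvd_rfl} : Set ↥(modularFunctionFieldBar M))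
    with hS
  have hjS : jBar M ∈ S := IntermediateField.subset_adjoin Qb _ (Set.mem_insert _ _)
  have hjMS : jdBar M M dvd_rfl ∈ S :=
    IntermediateField.subset_adjoin Qb _ (Set.mem_insert_of_mem _ rfl)
  have hj : ((embHom M M dvd_rfl).comp S.val) ⟨jBar M, hjS⟩ = jLL M :=
    embHom_jq M M dvd_rfl (jBar M) rfl
  obtain ⟨hfd, hrank⟩ := finrank_hom_mul_index_eq_index (Γ := SL(2, ℤ))
    ((embHom M M dvd_rfl).comp S.val) (embHom M M dvd_rfl) S.val (fun _ => rfl)
    ⟨jBar M, hjS⟩ (exists_finiteIndex_fixing M)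
    (fun g => by rw [hj]; exact smul_jLL M g)
    (fun x hx => by
      rw [hj]; exact Fermat.Agent.S24Inv.mem_adjoin_jLL_of_invariant' M x hx)
    (CongruenceSubgroup.Gamma0 M) (CongruenceSubgroup.Gamma0 M)
    (fun g => by
      constructor
      · intro hg y
        exact (mem_Gamma0_iff_smul_embHom M M dvd_rfl g).mp hg y
      · intro hg
        have h1 := hg ⟨jdBar M M dvd_rfl, hjMS⟩
        have h2 : g • jdLL M M dvd_rfl = jdLL M M dvd_rfl := by
          rw [← embHom_jdBar M M dvd_rfl]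
          exact h1
        exact (smul_jd_eq_iff M g).mp ((smul_jdLL_eq_iff M M dvd_rfl g).mp h2))
    (mem_Gamma0_iff_smul_embHom M M dvd_rfl)
  have hpos : 0 < (CongruenceSubgroup.Gamma0 M).index := by
    rw [index_Gamma0 M]; exact dedekindPsi_pos' M
  have h1 := Nat.eq_of_mul_eq_mul_right hpos (hrank.trans (one_mul _).symm)
  have h2 := Subalgebra.bot_eq_top_of_finrank_eq_one h1
  have h3 := (SetLike.ext_iff.mp h2 x).mpr Algebra.mem_top
  obtain ⟨c, hc⟩ := Algebra.mem_bot.mp h3
  have hc' : (c : ↥(modularFunctionFieldBar M)) = x := hc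
  rw [← hc']
  exact c.2

end Fermat.Agent.HeckeComm
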