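/-
E' seat DESC-COMM (helper96), part 2: base change of the norm.
`F ⊆ F'` finite, `E ⊆ E'`, compatible ring homomorphisms `b : F → E`, `b' : F' → E'`.
If `E'` is spanned over `E` by `b' (F')` and `[E' : E] ≥ [F' : F]` then
`Norm_{E'/E} (b' g) = b (Norm_{F'/F} g)`.
-/
import Mathlib

set_option autoImplicit false

namespace Fermat.Agent.HeckeComm

open Module

variable {F F' E E' : Type*} [Field F] [Field F'] [Field E] [Field E']
  [Algebra F F'] [Algebra E E']

/-- the image of an `F`-basis of `F'` spans `E'`. -/
theorem nbc_apply_eq_sum (b : F →+* E) (b' : F' →+* E')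
    (hcomp : ∀ x : F, b' (algebraMap F F' x) = algebraMap E E' (b x))
    {ι : Type*} [Fintype ι] (β : Basis ι F F') (x : F') :
    b' x = ∑ i, b (β.repr x i) • b' (β i) := by
  conv_lhs => rw [← β.sum_repr x]
  rw [map_sum]
  refine Finset.sum_congr rfl fun i _ => ?_
  rw [Algebra.smul_def, map_mul, hcomp, Algebra.smul_def]

theorem nbc_top_le_span (b : F →+* E) (b' : F' →+* E')
    (hcomp : ∀ x : F, b' (algebraMap F F' x) = algebraMap E E' (b x))
    (hspan : Submodule.span E (Set.range b') = ⊤)
    {ι : Type*} [Fintype ι] (β : Basis ι F F') :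
    ⊤ ≤ Submodule.span E (Set.range fun i => b' (β i)) := by
  rw [← hspan, Submodule.span_le]
  rintro _ ⟨x, rfl⟩
  rw [nbc_apply_eq_sum b b' hcomp β x]
  exact Submodule.sum_mem _ fun i _ =>
    Submodule.smul_mem _ _ (Submodule.subset_span ⟨i, rfl⟩)

/-- **Base change of the norm.** -/
theorem norm_baseChange [FiniteDimensional F F'] (b : F →+* E) (b' : F' →+* E')
    (hcomp : ∀ x : F, b' (algebraMap F F' x) = algebraMap E E' (b x))
    (hspan : Submodule.span E (Set.range b') = ⊤)
    (hrank : Module.finrank E E' = Module.finrank F F') (g : F') :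
    Algebra.norm E (b' g) = b (Algebra.norm F g) := by
  classical
  set β : Basis (Fin (finrank F F')) F F' := Module.finBasis F F' with hβ
  have hcard : Fintype.card (Fin (finrank F F')) = finrank E E' := by
    rw [Fintype.card_fin, hrank]
  set W : Basis (Fin (finrank F F')) E E' :=
    basisOfTopLeSpanOfCardEqFinrank (fun i => b' (β i)) (nbc_top_le_span b b' hcomp hspan β) hcard
    with hW
  have hWi : ∀ i, W i = b' (β i) := fun i => by
    rw [hW, coe_basisOfTopLeSpanOfCardEqFinrank]
  have hrepr : ∀ (x : F') (i : Fin (finrank F F')), W.repr (b' x) i = b (β.repr x i) := by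
    intro x i
    have h1 : b' x = ∑ j, b (β.repr x j) • W j := by
      rw [nbc_apply_eq_sum b b' hcomp β x]
      exact Finset.sum_congr rfl fun j _ => by rw [hWi]
    rw [h1, Basis.repr_sum_self]
  rw [Algebra.norm_eq_matrix_det W, Algebra.norm_eq_matrix_det β, RingHom.map_det]
  congr 1
  ext i j
  rw [RingHom.mapMatrix_apply, Matrix.map_apply, Algebra.leftMulMatrix_eq_repr_mul,
    Algebra.leftMulMatrix_eq_repr_mul, hWi, ← map_mul, hrepr]

/-- if the field `E'` is generated over `E` by the image of a ring homomorphism `b'` and `E'/E` is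
algebraic, then `E'` is spanned over `E` by this image. -/
theorem nbc_span_eq_top [Algebra.IsAlgebraic E E'] (b' : F' →+* E')
    (h : IntermediateField.adjoin E (Set.range b') = ⊤) :
    Submodule.span E (Set.range b') = ⊤ := by
  have h1 : (IntermediateField.adjoin E (Set.range b')).toSubalgebra
      = Algebra.adjoin E (Set.range b') :=
    IntermediateField.adjoin_toSubalgebra (Set.range b')
  have h2 : Algebra.adjoin E (Set.range b') = ⊤ := by
    rw [← h1, h, IntermediateField.top_toSubalgebra]
  have h3 : Subalgebra.toSubmodule (Algebra.adjoin E (Set.range b'))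
      = Submodule.span E (Submonoid.closure (Set.range b')) := Algebra.adjoin_eq_span E _
  have h4 : (Submonoid.closure (Set.range b') : Set E') = Set.range b' := by
    have : Set.range b' = ((b'.rangeS.toSubmonoid : Submonoid E') : Set E') := rfl
    rw [this, Submonoid.closure_eq]
  rw [h4] at h3
  rw [← h3, h2, Algebra.top_toSubmodule]

end Fermat.Agent.HeckeComm
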