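/-
E' seat DESC-COMM (helper96): arithmetic of Dedekind's `ψ`.
`ψ(N ℓ ℓ') ψ(N) = ψ(N ℓ) ψ(N ℓ')` for distinct primes `ℓ, ℓ'`.
-/
import Mathlib
import Fermat.Agent.S20.Cosets.Count

set_option autoImplicit false

namespace Fermat.Agent.HeckeComm

open ModularCurve

/-- the local factor of `ψ` at a prime. -/
def psiFactor (ℓ N : ℕ) : ℕ := if ℓ ∣ N then ℓ else ℓ + 1

theorem dedekindPsi_mul_prime_eq {ℓ : ℕ} (hℓ : ℓ.Prime) {N : ℕ} (hN : N ≠ 0) :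
    dedekindPsi (N * ℓ) = dedekindPsi N * psiFactor ℓ N := by
  obtain ⟨a, m, hm, rfl⟩ := Nat.exists_eq_pow_mul_and_not_dvd hN ℓ hℓ.ne_one
  have hcop : (ℓ ^ a).Coprime m := Nat.Coprime.pow_left a ((Nat.Prime.coprime_iff_not_dvd hℓ).mpr hm)
  have hcop' : (ℓ ^ (a + 1)).Coprime m :=
    Nat.Coprime.pow_left (a + 1) ((Nat.Prime.coprime_iff_not_dvd hℓ).mpr hm)
  have e1 : ℓ ^ a * m * ℓ = ℓ ^ (a + 1) * m := by ring
  rw [e1, Fermat.Agent.S20.dedekindPsi_mul hcop', Fermat.Agent.S20.dedekindPsi_mul hcop]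
  rcases Nat.eq_zero_or_pos a with ha | ha
  · subst ha
    have h1 : ¬ ℓ ∣ ℓ ^ 0 * m := by simpa using hm
    rw [psiFactor, if_neg h1]
    have h2 := Fermat.Agent.S20.dedekindPsi_prime_pow (p := ℓ) (k := 0) hℓ
    rw [h2, pow_zero, dedekindPsi_one]
    ring
  · obtain ⟨b, rfl⟩ : ∃ b, a = b + 1 := ⟨a - 1, by omega⟩
    have h1 : ℓ ∣ ℓ ^ (b + 1) * m := Dvd.dvd.mul_right (dvd_pow_self ℓ (by omega)) m
    rw [psiFactor, if_pos h1, Fermat.Agent.S20.dedekindPsi_prime_pow hℓ,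
      Fermat.Agent.S20.dedekindPsi_prime_pow hℓ]
    ring

theorem psiFactor_mul_prime {ℓ ℓ' : ℕ} (hℓ : ℓ.Prime) (hℓ' : ℓ'.Prime) (hne : ℓ ≠ ℓ') (N : ℕ) :
    psiFactor ℓ (N * ℓ') = psiFactor ℓ N := by
  unfold psiFactor
  have : ℓ ∣ N * ℓ' ↔ ℓ ∣ N := by
    constructor
    · intro h
      rcases (Nat.Prime.dvd_mul hℓ).mp h with h | h
      · exact h
      · exact absurd ((Nat.prime_dvd_prime_iff_eq hℓ hℓ').mp h) hne
    · intro h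
      exact Dvd.dvd.mul_right h ℓ'
  simp only [this]

/-- `ψ(N ℓ' ℓ) ψ(N) = ψ(N ℓ) ψ(N ℓ')`. -/
theorem dedekindPsi_square {ℓ ℓ' : ℕ} (hℓ : ℓ.Prime) (hℓ' : ℓ'.Prime) (hne : ℓ ≠ ℓ') {N : ℕ}
    (hN : N ≠ 0) :
    dedekindPsi (N * ℓ' * ℓ) * dedekindPsi N = dedekindPsi (N * ℓ) * dedekindPsi (N * ℓ') := by
  rw [dedekindPsi_mul_prime_eq hℓ (Nat.mul_ne_zero hN hℓ'.ne_zero),
    psiFactor_mul_prime hℓ hℓ' hne, dedekindPsi_mul_prime_eq hℓ hN]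
  ring

end Fermat.Agent.HeckeComm
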