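/-
E' seat DESC-COMM (helper96), part 4: the function identity
`T_ℓ' (T_ℓ f) = Norm_{F_{Nℓℓ'}/F_N} f(q^{ℓℓ'}) = T_ℓ (T_ℓ' f)` for distinct primes `ℓ, ℓ'`,
where `T_ℓ f = Norm_{F_{Nℓ}/F_N} f(q^ℓ)` (`F3G.heckeFun`).
-/
import Mathlib
import Fermat.Agent.Lib.HeckeComm.Gen
import Fermat.Agent.Lib.HeckeComm.NormBC
import Fermat.Agent.Lib.HeckeComm.Psi
import Fermat.Agent.F3.Galois.NormDesc

set_option autoImplicit false

noncomputable section

namespace Fermat.Agent.HeckeComm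

open ModularCurve AlgebraicCurve Fermat.Agent.F3G Fermat.Agent.Kronecker Fermat.Agent.S24

local notation "Qb" => AlgebraicClosure ℚ

set_option synthInstance.maxHeartbeats 400000

section

variable (N ℓ ℓ' : ℕ) [NeZero N] [NeZero ℓ] [NeZero ℓ']

theorem dvd_level (N ℓ ℓ' : ℕ) : N * ℓ' ∣ N * ℓ * ℓ' :=
  ⟨ℓ, by ring⟩

theorem dvd_level' (N ℓ ℓ' : ℕ) : N ∣ N * ℓ * ℓ' :=
  ⟨ℓ * ℓ', by ring⟩

/-- compatibility of the two `q ↦ q^ℓ'` with the inclusions. -/
theorem beta_incl (x : ↥(modularFunctionFieldBar N)) :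
    heckeBetaBar Qb (N * ℓ) ℓ' (heckeAlphaBar Qb N ℓ x)
      = incl (N * ℓ') (N * ℓ * ℓ') (dvd_level N ℓ ℓ') (heckeBetaBar Qb N ℓ' x) := by
  apply Subtype.ext
  rw [coe_heckeBetaBar, coe_heckeAlphaBar, coe_incl, coe_heckeBetaBar]

theorem incl_incl (A B C : ℕ) [NeZero A] [NeZero B] [NeZero C] (h : A ∣ B) (h' : B ∣ C)
    (x : ↥(modularFunctionFieldBar A)) :
    incl B C h' (incl A B h x) = incl A C (h.trans h') x := by
  apply Subtype.ext
  rw [coe_incl, coe_incl, coe_incl]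

/-- `F_{Nℓℓ'}` is generated over `F_{Nℓ'}` by the image of `F_{Nℓ}` under `q ↦ q^ℓ'`. -/
theorem adjoin_range_beta_eq_top :
    letI := (incl (N * ℓ') (N * ℓ * ℓ') (dvd_level N ℓ ℓ')).toRingHom.toAlgebra
    IntermediateField.adjoin ↥(modularFunctionFieldBar (N * ℓ'))
      (Set.range (heckeBetaBar Qb (N * ℓ) ℓ').toRingHom) = ⊤ := by
  letI := (incl (N * ℓ') (N * ℓ * ℓ') (dvd_level N ℓ ℓ')).toRingHom.toAlgebra
  haveI : IsScalarTower Qb ↥(modularFunctionFieldBar (N * ℓ'))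
      ↥(modularFunctionFieldBar (N * ℓ * ℓ')) :=
    IsScalarTower.of_algebraMap_eq fun c =>
      ((incl (N * ℓ') (N * ℓ * ℓ') (dvd_level N ℓ ℓ')).commutes c).symm
  rw [eq_top_iff]
  rintro x -
  have hx := mem_adjoin_j_jM (N * ℓ * ℓ') x
  induction hx using IntermediateField.adjoin_induction with
  | mem y hy =>
    rcases hy with rfl | hy
    · have : jBar (N * ℓ * ℓ') = algebraMap ↥(modularFunctionFieldBar (N * ℓ'))
          ↥(modularFunctionFieldBar (N * ℓ * ℓ')) (jBar (N * ℓ')) := by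
        apply Subtype.ext
        show _ = ((incl (N * ℓ') (N * ℓ * ℓ') (dvd_level N ℓ ℓ') (jBar (N * ℓ')) :
          ↥(modularFunctionFieldBar (N * ℓ * ℓ'))) : LaurentSeries Qb)
        rw [coe_incl]
        rfl
      rw [this]
      exact IntermediateField.algebraMap_mem _ _
    · rw [Set.mem_singleton_iff] at hy
      subst hy
      apply IntermediateField.subset_adjoin
      refine ⟨jdBar (N * ℓ) (N * ℓ) dvd_rfl, ?_⟩
      apply Subtype.ext
      show ((heckeBetaBar Qb (N * ℓ) ℓ' (jdBar (N * ℓ) (N * ℓ) dvd_rfl) :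
        ↥(modularFunctionFieldBar (N * ℓ * ℓ'))) : LaurentSeries Qb) = _
      rw [coe_heckeBetaBar, coe_jdBar, coe_jdBar, qExpand_qExpand]
      simp only [mul_comm ℓ' (N * ℓ)]
  | algebraMap c =>
    rw [IsScalarTower.algebraMap_apply Qb ↥(modularFunctionFieldBar (N * ℓ'))
      ↥(modularFunctionFieldBar (N * ℓ * ℓ'))]
    exact IntermediateField.algebraMap_mem _ _
  | add x y _ _ hx hy => exact add_mem hx hy
  | inv x _ hx => exact inv_mem hx
  | mul x y _ _ hx hy => exact mul_mem hx hy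

/-- `[F_{Nℓℓ'} : F_{Nℓ'}] = [F_{Nℓ} : F_N]` for distinct primes. -/
theorem finrank_square (hℓ : ℓ.Prime) (hℓ' : ℓ'.Prime) (hne : ℓ ≠ ℓ') :
    (letI := (incl (N * ℓ') (N * ℓ * ℓ') (dvd_level N ℓ ℓ')).toRingHom.toAlgebra
     Module.finrank ↥(modularFunctionFieldBar (N * ℓ')) ↥(modularFunctionFieldBar (N * ℓ * ℓ')))
    = (letI := (heckeAlphaBar Qb N ℓ).toRingHom.toAlgebra
       Module.finrank ↥(modularFunctionFieldBar N) ↥(modularFunctionFieldBar (N * ℓ))) := by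
  obtain ⟨-, h1⟩ := finrank_incl (N * ℓ') (N * ℓ * ℓ') (dvd_level N ℓ ℓ')
  obtain ⟨-, h2⟩ := finrank_incl N (N * ℓ) (dvd_mul_right N ℓ)
  have h3 := dedekindPsi_square hℓ hℓ' hne (NeZero.ne N)
  rw [show N * ℓ' * ℓ = N * ℓ * ℓ' by ring] at h3
  have hp1 : 0 < dedekindPsi (N * ℓ') := dedekindPsi_pos' (N * ℓ')
  have hp2 : 0 < dedekindPsi N := dedekindPsi_pos' N
  rw [heckeAlphaBar_eq_incl]
  apply Nat.eq_of_mul_eq_mul_right (Nat.mul_pos hp1 hp2)
  calc _ = dedekindPsi (N * ℓ * ℓ') * dedekindPsi N := by rw [← h1]; ring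
    _ = dedekindPsi (N * ℓ) * dedekindPsi (N * ℓ') := h3
    _ = _ := by rw [← h2]; ring

/-- **Base change of the norm** along `q ↦ q^ℓ'`. -/
theorem normAlong_beta (hℓ : ℓ.Prime) (hℓ' : ℓ'.Prime) (hne : ℓ ≠ ℓ')
    (g : ↥(modularFunctionFieldBar (N * ℓ))) :
    normAlong (incl (N * ℓ') (N * ℓ * ℓ') (dvd_level N ℓ ℓ')) (heckeBetaBar Qb (N * ℓ) ℓ' g)
      = heckeBetaBar Qb N ℓ' (normAlong (heckeAlphaBar Qb N ℓ) g) := by
  letI i1 : Algebra ↥(modularFunctionFieldBar (N * ℓ')) ↥(modularFunctionFieldBar (N * ℓ * ℓ')) :=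
    (incl (N * ℓ') (N * ℓ * ℓ') (dvd_level N ℓ ℓ')).toRingHom.toAlgebra
  letI i2 : Algebra ↥(modularFunctionFieldBar N) ↥(modularFunctionFieldBar (N * ℓ)) :=
    (heckeAlphaBar Qb N ℓ).toRingHom.toAlgebra
  haveI : FiniteDimensional ↥(modularFunctionFieldBar N) ↥(modularFunctionFieldBar (N * ℓ)) :=
    (finrank_incl N (N * ℓ) (dvd_mul_right N ℓ)).1
  haveI : FiniteDimensional ↥(modularFunctionFieldBar (N * ℓ'))
      ↥(modularFunctionFieldBar (N * ℓ * ℓ')) :=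
    (finrank_incl (N * ℓ') (N * ℓ * ℓ') (dvd_level N ℓ ℓ')).1
  have hspan := nbc_span_eq_top (E := ↥(modularFunctionFieldBar (N * ℓ')))
    (E' := ↥(modularFunctionFieldBar (N * ℓ * ℓ')))
    (heckeBetaBar Qb (N * ℓ) ℓ').toRingHom (adjoin_range_beta_eq_top N ℓ ℓ')
  exact norm_baseChange (F := ↥(modularFunctionFieldBar N))
    (F' := ↥(modularFunctionFieldBar (N * ℓ)))
    (E := ↥(modularFunctionFieldBar (N * ℓ')))
    (E' := ↥(modularFunctionFieldBar (N * ℓ * ℓ')))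
    (heckeBetaBar Qb N ℓ').toRingHom (heckeBetaBar Qb (N * ℓ) ℓ').toRingHom
    (fun x => beta_incl N ℓ ℓ' x) hspan (finrank_square N ℓ ℓ' hℓ hℓ' hne) g

/-- transitivity of the norm in the tower `F_A ⊆ F_B ⊆ F_C`. -/
theorem normAlong_normAlong (A B C : ℕ) [NeZero A] [NeZero B] [NeZero C] (h : A ∣ B)
    (h' : B ∣ C) (y : ↥(modularFunctionFieldBar C)) :
    normAlong (incl A B h) (normAlong (incl B C h') y) = normAlong (incl A C (h.trans h')) y := by
  letI i1 : Algebra ↥(modularFunctionFieldBar A) ↥(modularFunctionFieldBar B) :=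
    (incl A B h).toRingHom.toAlgebra
  letI i2 : Algebra ↥(modularFunctionFieldBar B) ↥(modularFunctionFieldBar C) :=
    (incl B C h').toRingHom.toAlgebra
  letI i3 : Algebra ↥(modularFunctionFieldBar A) ↥(modularFunctionFieldBar C) :=
    (incl A C (h.trans h')).toRingHom.toAlgebra
  haveI : IsScalarTower ↥(modularFunctionFieldBar A) ↥(modularFunctionFieldBar B)
      ↥(modularFunctionFieldBar C) :=
    IsScalarTower.of_algebraMap_eq fun x => (incl_incl A B C h h' x).symm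
  haveI : FiniteDimensional ↥(modularFunctionFieldBar A) ↥(modularFunctionFieldBar B) :=
    (finrank_incl A B h).1
  haveI : FiniteDimensional ↥(modularFunctionFieldBar B) ↥(modularFunctionFieldBar C) :=
    (finrank_incl B C h').1
  exact Algebra.norm_norm (R := ↥(modularFunctionFieldBar A))
    (S := ↥(modularFunctionFieldBar B)) (A := ↥(modularFunctionFieldBar C)) (a := y)

/-- `T_ℓ' (T_ℓ f) = Norm_{F_{Nℓℓ'}/F_N} f(q^{ℓℓ'})`. -/
theorem heckeFun_heckeFun (hℓ : ℓ.Prime) (hℓ' : ℓ'.Prime) (hne : ℓ ≠ ℓ')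
    (f : ↥(modularFunctionFieldBar N)) :
    heckeFun Qb N ℓ' (heckeFun Qb N ℓ f)
      = normAlong (incl N (N * ℓ * ℓ') (dvd_level' N ℓ ℓ'))
          (heckeBetaBar Qb (N * ℓ) ℓ' (heckeBetaBar Qb N ℓ f)) := by
  rw [heckeFun_apply, heckeFun_apply]
  show normAlong (heckeAlphaBar Qb N ℓ')
      (heckeBetaBar Qb N ℓ' (normAlong (heckeAlphaBar Qb N ℓ) (heckeBetaBar Qb N ℓ f))) = _
  rw [← normAlong_beta N ℓ ℓ' hℓ hℓ' hne, heckeAlphaBar_eq_incl,
    normAlong_normAlong N (N * ℓ') (N * ℓ * ℓ') (dvd_mul_right N ℓ') (dvd_level N ℓ ℓ')]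

/-- the norm to `F_N` only depends on the Laurent series. -/
theorem normAlong_incl_congr {M M' : ℕ} [NeZero M] [NeZero M'] (hMM' : M = M') (h : N ∣ M)
    (h' : N ∣ M') (y : ↥(modularFunctionFieldBar M)) (y' : ↥(modularFunctionFieldBar M'))
    (hy : (y : LaurentSeries Qb) = (y' : LaurentSeries Qb)) :
    normAlong (incl N M h) y = normAlong (incl N M' h') y' := by
  subst hMM'
  have : y = y' := Subtype.ext hy
  subst this
  rfl

/-- **The function identity.** -/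
theorem heckeFun_comm (hℓ : ℓ.Prime) (hℓ' : ℓ'.Prime) (hne : ℓ ≠ ℓ')
    (f : ↥(modularFunctionFieldBar N)) :
    heckeFun Qb N ℓ' (heckeFun Qb N ℓ f) = heckeFun Qb N ℓ (heckeFun Qb N ℓ' f) := by
  rw [heckeFun_heckeFun N ℓ ℓ' hℓ hℓ' hne, heckeFun_heckeFun N ℓ' ℓ hℓ' hℓ (Ne.symm hne)]
  apply normAlong_incl_congr N (by ring)
  rw [coe_heckeBetaBar, coe_heckeBetaBar, coe_heckeBetaBar, coe_heckeBetaBar,
    qExpand_qExpand, qExpand_qExpand]
  simp only [mul_comm ℓ' ℓ]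

end

end Fermat.Agent.HeckeComm
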