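/-
E' seat DESC-COMM (helper96), part 1: rigidity.
Two additive endomorphisms of the divisor group which agree on principal divisors agree on all
divisors of degree zero, as soon as `Pic⁰` is divisible (the divisor group is free, so it contains
no divisible element).
-/
import Mathlib
import Fermat.Prelude.Def_AlgebraicCurve_Correspondence

set_option autoImplicit false

namespace Fermat.Agent.HeckeComm

open AlgebraicCurve

variable {K F : Type*} [Field K] [Field F] [Algebra K F]

/-- an integer which is divisible by `|m| + 1` ... is `0`. -/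
theorem rigid_int_eq_zero {m : ℤ} (h : ((m.natAbs + 1 : ℕ) : ℤ) ∣ m) : m = 0 := by
  by_contra hm
  have h1 : ((m.natAbs + 1 : ℕ) : ℤ) ≤ |m| := Int.le_of_dvd (abs_pos.mpr hm) ((dvd_abs _ _).mpr h)
  have h2 : |m| = (m.natAbs : ℤ) := Int.abs_eq_natAbs m
  rw [h2] at h1
  push_cast at h1
  omega

/-- **Rigidity.** -/
theorem rigid_eq_of_eq_on_principal
    (hdiv : ∀ (n : ℕ), 0 < n → ∀ y : Pic0 K F, ∃ w : Pic0 K F, n • w = y)
    (A B : Divisor K F →+ Divisor K F)
    (hAB : ∀ D : Divisor K F, D.IsPrincipal → A D = B D)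
    (D : Divisor K F) (hD : D ∈ Divisor.degZero (K := K) (F := F)) : A D = B D := by
  have hC : ∀ E : Divisor K F, E ∈ Divisor.degZero (K := K) (F := F) →
      ∀ v : Place K F, (A E - B E) v = 0 := by
    intro E hE v
    apply rigid_int_eq_zero
    set n : ℕ := ((A E - B E) v).natAbs + 1 with hn
    obtain ⟨w, hw⟩ := hdiv n (Nat.succ_pos _) (Pic0.mk ⟨E, hE⟩)
    obtain ⟨E', rfl⟩ := Pic0.mk_surjective w
    have h1 : Pic0.mk (⟨E, hE⟩ - n • E') = 0 := by
      have : Pic0.mk (⟨E, hE⟩ - n • E') = Pic0.mk ⟨E, hE⟩ - n • Pic0.mk E' := by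
        show QuotientAddGroup.mk' _ (⟨E, hE⟩ - n • E') = _
        rw [map_sub, map_nsmul]
        rfl
      rw [this, hw, sub_self]
    have h2 : (⟨E, hE⟩ - n • E' : Divisor.degZero (K := K) (F := F)) ∈
        (Divisor.principal (K := K) (F := F)).addSubgroupOf
          (Divisor.degZero (K := K) (F := F)) :=
      (QuotientAddGroup.eq_zero_iff _).mp h1
    have h3 : (E - n • (E' : Divisor K F)).IsPrincipal := by
      have h2' : (E - n • (E' : Divisor K F)) ∈ Divisor.principal (K := K) (F := F) := by
        have := h2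
        simpa [AddSubgroup.mem_addSubgroupOf] using this
      exact h2'
    have h4 := hAB _ h3
    rw [map_sub, map_sub, map_nsmul, map_nsmul] at h4
    have h5 : A E - B E = n • (A (E' : Divisor K F) - B (E' : Divisor K F)) := by
      rw [smul_sub]
      have := sub_eq_sub_iff_add_eq_add.mp h4
      rw [sub_eq_sub_iff_add_eq_add]
      rw [add_comm (A E), add_comm (B E)] at this
      rw [add_comm, this, add_comm]
    rw [h5]
    simp only [Finsupp.smul_apply, nsmul_eq_mul]
    exact Dvd.intro _ rfl
  have h : A D - B D = 0 := Finsupp.ext (fun v => by simpa using hC D hD v)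
  exact sub_eq_zero.mp h

end Fermat.Agent.HeckeComm
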