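/-
E' seat DESC-COMM (helper96), part 5: the Hecke operators on `J₀(N)(ℚ̄)` commute.
`heckeOperatorsCommuteBar N : ModularCurve.HeckeOperatorsCommuteBar N` for every `N`.
-/
import Mathlib
import Fermat.Agent.Lib.HeckeComm.FunId
import Fermat.Agent.Lib.HeckeComm.Rigid
import Fermat.Agent.Lib.HeckeInputs.Qbar
import Fermat.Agent.Lib.Div.Inst

set_option autoImplicit false

noncomputable section

namespace Fermat.Agent.HeckeComm

open ModularCurve AlgebraicCurve Fermat.Agent.F3G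

local notation "Qb" => AlgebraicClosure ℚ

set_option synthInstance.maxHeartbeats 400000

section

variable (N ℓ ℓ' : ℕ) [NeZero N] [NeZero ℓ] [NeZero ℓ']

/-- `T_ℓ (div f) = div (T_ℓ f)` on divisors. -/
theorem heckeDivBar_apply_of_principal
    (hα : HeckeAlphaBarIntegral Qb N ℓ) (hβ : HeckeBetaBarIntegral Qb N ℓ)
    [HasPrincipalDivisors Qb ↥(modularFunctionFieldBar (N * ℓ))]
    (hfin : FiniteAlong Qb (heckeAlphaBar Qb N ℓ))
    (hN : NormFormulaAlong Qb (heckeAlphaBar Qb N ℓ) hfin)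
    {f : ↥(modularFunctionFieldBar N)} (hf : f ≠ 0)
    {D : Divisor Qb ↥(modularFunctionFieldBar N)}
    (hD : ∀ v : Place Qb ↥(modularFunctionFieldBar N), D v = v.ord f)
    (v : Place Qb ↥(modularFunctionFieldBar N)) :
    heckeDivBar hα hβ D v = v.ord (heckeFun Qb N ℓ f) :=
  correspondence_apply_eq_ord_norm (heckeBetaBar Qb N ℓ) (heckeAlphaBar Qb N ℓ) hβ hα hfin hN
    hf hD v

/-- the divisor-level Hecke correspondences commute on divisors of degree zero. -/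
theorem heckeDivBar_comm (hℓ : ℓ.Prime) (hℓ' : ℓ'.Prime) (hne : ℓ ≠ ℓ')
    (hα : HeckeAlphaBarIntegral Qb N ℓ) (hβ : HeckeBetaBarIntegral Qb N ℓ)
    [HasPrincipalDivisors Qb ↥(modularFunctionFieldBar (N * ℓ))]
    (hfin : FiniteAlong Qb (heckeAlphaBar Qb N ℓ))
    (hN : NormFormulaAlong Qb (heckeAlphaBar Qb N ℓ) hfin)
    (hα' : HeckeAlphaBarIntegral Qb N ℓ') (hβ' : HeckeBetaBarIntegral Qb N ℓ')
    [HasPrincipalDivisors Qb ↥(modularFunctionFieldBar (N * ℓ'))]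
    (hfin' : FiniteAlong Qb (heckeAlphaBar Qb N ℓ'))
    (hN' : NormFormulaAlong Qb (heckeAlphaBar Qb N ℓ') hfin')
    (D : Divisor Qb ↥(modularFunctionFieldBar N))
    (hD : D ∈ Divisor.degZero (K := Qb) (F := ↥(modularFunctionFieldBar N))) :
    heckeDivBar hα' hβ' (heckeDivBar hα hβ D) = heckeDivBar hα hβ (heckeDivBar hα' hβ' D) := by
  have hin : HeckeInputsAlong Qb N ℓ := Fermat.Agent.HeckeInputs.hi_heckeInputsAlong_Qbar N ℓ
  have hin' : HeckeInputsAlong Qb N ℓ' := Fermat.Agent.HeckeInputs.hi_heckeInputsAlong_Qbar N ℓ'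
  refine rigid_eq_of_eq_on_principal (K := Qb) (F := ↥(modularFunctionFieldBar N))
    (fun n hn y => Fermat.Agent.Div.jZero_divisible N n hn y)
    ((heckeDivBar hα' hβ').comp (heckeDivBar hα hβ))
    ((heckeDivBar hα hβ).comp (heckeDivBar hα' hβ')) ?_ D hD
  rintro E ⟨f, hf, hE⟩
  show heckeDivBar hα' hβ' (heckeDivBar hα hβ E) = heckeDivBar hα hβ (heckeDivBar hα' hβ' E)
  have h1 : ∀ v, heckeDivBar hα hβ E v = v.ord (heckeFun Qb N ℓ f) :=
    heckeDivBar_apply_of_principal N ℓ hα hβ hfin hN hf hE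
  have h1' : ∀ v, heckeDivBar hα' hβ' E v = v.ord (heckeFun Qb N ℓ' f) :=
    heckeDivBar_apply_of_principal N ℓ' hα' hβ' hfin' hN' hf hE
  have h2 : ∀ v, heckeDivBar hα' hβ' (heckeDivBar hα hβ E) v
      = v.ord (heckeFun Qb N ℓ' (heckeFun Qb N ℓ f)) :=
    heckeDivBar_apply_of_principal N ℓ' hα' hβ' hfin' hN' (heckeFun_ne_zero hin hf) h1
  have h2' : ∀ v, heckeDivBar hα hβ (heckeDivBar hα' hβ' E) v
      = v.ord (heckeFun Qb N ℓ (heckeFun Qb N ℓ' f)) :=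
    heckeDivBar_apply_of_principal N ℓ hα hβ hfin hN (heckeFun_ne_zero hin' hf) h1'
  ext v
  rw [h2, h2', heckeFun_comm N ℓ ℓ' hℓ hℓ' hne]

/-- the Hecke operators `T_ℓ`, `T_ℓ'` on `J₀(N)(ℚ̄)` commute. -/
theorem heckeOperatorAlong_comm (hℓ : ℓ.Prime) (hℓ' : ℓ'.Prime) (x : JZero N) :
    heckeOperatorAlong Qb N ℓ' (heckeOperatorAlong Qb N ℓ x)
      = heckeOperatorAlong Qb N ℓ (heckeOperatorAlong Qb N ℓ' x) := by
  by_cases hne : ℓ = ℓ'
  · subst hne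
    rfl
  obtain ⟨hα, hβ, hP, hfin, hFI, hN⟩ := Fermat.Agent.HeckeInputs.hi_heckeInputsAlong_Qbar N ℓ
  obtain ⟨hα', hβ', hP', hfin', hFI', hN'⟩ :=
    Fermat.Agent.HeckeInputs.hi_heckeInputsAlong_Qbar N ℓ'
  haveI := hP
  haveI := hP'
  rw [heckeOperatorAlong_eq hα hβ hFI hfin hN, heckeOperatorAlong_eq hα' hβ' hFI' hfin' hN']
  obtain ⟨D, rfl⟩ := Pic0.mk_surjective x
  have e1 : ∀ E : Divisor.degZero (K := Qb) (F := ↥(modularFunctionFieldBar N)),
      heckePic0Bar hα hβ hFI hfin hN (Pic0.mk E)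
        = Pic0.mk (Pic0.degZeroCorrespondence (heckeBetaBar Qb N ℓ) (heckeAlphaBar Qb N ℓ)
            hβ hα hFI E) := fun E => rfl
  have e2 : ∀ E : Divisor.degZero (K := Qb) (F := ↥(modularFunctionFieldBar N)),
      heckePic0Bar hα' hβ' hFI' hfin' hN' (Pic0.mk E)
        = Pic0.mk (Pic0.degZeroCorrespondence (heckeBetaBar Qb N ℓ') (heckeAlphaBar Qb N ℓ')
            hβ' hα' hFI' E) := fun E => rfl
  rw [e1, e2, e2, e1]
  congr 1
  apply Subtype.ext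
  show heckeDivBar hα' hβ' (heckeDivBar hα hβ (D : Divisor Qb _))
    = heckeDivBar hα hβ (heckeDivBar hα' hβ' (D : Divisor Qb _))
  exact heckeDivBar_comm N ℓ ℓ' hℓ hℓ' hne hα hβ hfin hN hα' hβ' hfin' hN' D D.2

end

/-- **DESC-COMM**: the Hecke operators on `J₀(N)(ℚ̄)` commute, for every level `N`. -/
theorem heckeOperatorsCommuteBar (N : ℕ) [NeZero N] : ModularCurve.HeckeOperatorsCommuteBar N := by
  intro ℓ ℓ'
  haveI : NeZero (ℓ : ℕ) := ⟨ℓ.2.ne_zero⟩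
  haveI : NeZero (ℓ' : ℕ) := ⟨ℓ'.2.ne_zero⟩
  apply LinearMap.ext
  intro x
  show heckeOperatorAlong Qb N ℓ (heckeOperatorAlong Qb N ℓ' x)
    = heckeOperatorAlong Qb N ℓ' (heckeOperatorAlong Qb N ℓ x)
  exact heckeOperatorAlong_comm N ℓ' ℓ ℓ'.2 ℓ.2 x

end Fermat.Agent.HeckeComm
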